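import Mathlib.RingTheory.LaurentSeries
import Mathlib.Algebra.Field.Subfield.Basic
import Mathlib.Algebra.Polynomial.AlgebraMap
set_option autoImplicit false
open Polynomial
namespace Fermat.Agent.S28_helper67

section Descent

variable {K : Type*} [Field K]

/-- Laurent series all of whose coefficients lie in a given subfield. -/
def coeffSubring (k : Subfield K) : Subring (LaurentSeries K) where
  carrier := {f | ∀ n, f.coeff n ∈ k}
  mul_mem' := by
    intro f g hf hg n
    rw [HahnSeries.coeff_mul]
    exact Subfield.sum_mem _ fun ij _ => mul_mem (hf _) (hg _)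
  one_mem' := by
    intro n
    rw [HahnSeries.coeff_one]
    split_ifs
    · exact one_mem _
    · exact zero_mem _
  add_mem' := by
    intro f g hf hg n
    rw [HahnSeries.coeff_add]
    exact add_mem (hf _) (hg _)
  zero_mem' := by
    intro n
    simp
  neg_mem' := by
    intro f hf n
    rw [HahnSeries.coeff_neg]
    exact neg_mem (hf _)

lemma mem_coeffSubring {k : Subfield K} {f : LaurentSeries K} :
    f ∈ coeffSubring k ↔ ∀ n, f.coeff n ∈ k := Iff.rfl

lemma algebraMap_eq_C (c : K) : algebraMap K (LaurentSeries K) c = HahnSeries.C c := by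
  have h1 : algebraMap K (PowerSeries K) c = PowerSeries.C c := by simp
  rw [HahnSeries.algebraMap_apply', h1, HahnSeries.ofPowerSeries_C]

lemma coeff_algebraMap_mul (c : K) (f : LaurentSeries K) (n : ℤ) :
    (algebraMap K (LaurentSeries K) c * f).coeff n = c * f.coeff n := by
  rw [algebraMap_eq_C, HahnSeries.C_apply, HahnSeries.coeff_single_zero_mul]

lemma coeff_algebraMap (c : K) (n : ℤ) :
    (algebraMap K (LaurentSeries K) c).coeff n = if n = 0 then c else 0 := by
  simp [algebraMap_eq_C, HahnSeries.coeff_single]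

lemma leadingCoeff_pow' (J : LaurentSeries K) (n : ℕ) :
    (J ^ n).leadingCoeff = J.leadingCoeff ^ n := by
  induction n with
  | zero => simp
  | succ n ih => rw [pow_succ, HahnSeries.leadingCoeff_mul, ih, pow_succ]

lemma coeff_pow_nsmul_order (J : LaurentSeries K) (n : ℕ) :
    (J ^ n).coeff (n • J.order) = J.leadingCoeff ^ n := by
  rw [← leadingCoeff_pow', HahnSeries.leadingCoeff_eq, HahnSeries.order_pow]

lemma coeff_pow_eq_zero_of_lt {J : LaurentSeries K} (hJ : J.order < 0) {i n : ℕ} (hin : i < n) :
    (J ^ i).coeff (n • J.order) = 0 := by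
  apply HahnSeries.coeff_eq_zero_of_lt_order
  rw [HahnSeries.order_pow]
  simp only [nsmul_eq_mul]
  have : (i : ℤ) < n := by exact_mod_cast hin
  nlinarith

lemma coeff_aeval_nsmul_order {J : LaurentSeries K} (hJ : J.order < 0) (P : K[X]) (n : ℕ)
    (hn : P.natDegree ≤ n) :
    (aeval J P).coeff (n • J.order) = P.coeff n * J.leadingCoeff ^ n := by
  have h : aeval J P
      = ∑ i ∈ Finset.range (n + 1), algebraMap K (LaurentSeries K) (P.coeff i) * J ^ i := by
    rw [aeval_eq_sum_range' (Nat.lt_succ_of_le hn)]
    exact Finset.sum_congr rfl fun i _ => Algebra.smul_def _ _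
  rw [h, Finset.sum_range_succ]
  rw [HahnSeries.coeff_add, HahnSeries.coeff_sum]
  rw [Finset.sum_eq_zero, zero_add, coeff_algebraMap_mul, coeff_pow_nsmul_order]
  intro i hi
  rw [coeff_algebraMap_mul, coeff_pow_eq_zero_of_lt hJ (Finset.mem_range.mp hi), mul_zero]

/-- Descent of coefficients: if `J` has a pole, coefficients in the subfield `k`, and `P(J)` has
coefficients in `k`, then `P` has coefficients in `k`. -/
theorem coeff_mem_of_aeval_mem (k : Subfield K) {J : LaurentSeries K} (hJ : J.order < 0)
    (hJk : J ∈ coeffSubring k) :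
    ∀ (n : ℕ) (P : K[X]), P.natDegree ≤ n → aeval J P ∈ coeffSubring k → ∀ i, P.coeff i ∈ k := by
  have hJ0 : J ≠ 0 := by
    rintro rfl
    simp at hJ
  have hlc : J.leadingCoeff ≠ 0 := HahnSeries.leadingCoeff_ne_zero.mpr hJ0
  have hlck : J.leadingCoeff ∈ k := by
    rw [HahnSeries.leadingCoeff_eq]; exact hJk _
  intro n
  induction n with
  | zero =>
    intro P hP hmem i
    rw [Nat.le_zero] at hP
    rw [eq_C_of_natDegree_eq_zero hP] at hmem ⊢
    have h := hmem 0
    rw [aeval_C] at h
    rw [coeff_algebraMap, if_pos rfl] at h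
    rw [coeff_C]
    split_ifs
    · exact h
    · exact zero_mem _
  | succ n ih =>
    intro P hP hmem i
    have hc : P.coeff (n + 1) ∈ k := by
      have h := hmem ((n + 1) • J.order)
      rw [coeff_aeval_nsmul_order hJ P (n + 1) hP] at h
      have h3 : P.coeff (n + 1) = P.coeff (n + 1) * J.leadingCoeff ^ (n + 1)
          * (J.leadingCoeff ^ (n + 1))⁻¹ := by
        field_simp
      rw [h3]
      exact mul_mem h (inv_mem (pow_mem hlck _))
    set Q : K[X] := P - C (P.coeff (n + 1)) * X ^ (n + 1) with hQ
    have hQdeg : Q.natDegree ≤ n := by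
      rw [natDegree_le_iff_coeff_eq_zero]
      intro N hN
      rw [hQ, coeff_sub, coeff_C_mul, coeff_X_pow]
      by_cases hN' : N = n + 1
      · subst hN'; simp
      · rw [if_neg hN', mul_zero, sub_zero]
        exact coeff_eq_zero_of_natDegree_lt (by omega)
    have hQmem : aeval J Q ∈ coeffSubring k := by
      rw [hQ, map_sub, map_mul, aeval_C, map_pow, aeval_X]
      refine sub_mem hmem (mul_mem ?_ (pow_mem hJk _))
      intro m
      rw [coeff_algebraMap]
      split_ifs
      · exact hc
      · exact zero_mem _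
    have hQi := ih Q hQdeg hQmem i
    have : P.coeff i = Q.coeff i + (C (P.coeff (n + 1)) * X ^ (n + 1)).coeff i := by
      rw [hQ, coeff_sub]; ring
    rw [this]
    refine add_mem hQi ?_
    rw [coeff_C_mul, coeff_X_pow]
    split_ifs
    · simpa using hc
    · simp

end Descent

end Fermat.Agent.S28_helper67
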