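import Mathlib.NumberTheory.ModularForms.LevelOne.Basic
import Mathlib.RingTheory.Polynomial.Vieta
import Mathlib.RingTheory.MvPolynomial.Symmetric.Defs

set_option autoImplicit false

open ModularForm Complex Filter Function Topology Manifold MatrixGroups Polynomial
open UpperHalfPlane hiding I
open scoped Real

namespace Fermat.Agent.S28_helper67

local notation "𝕢" => Periodic.qParam

/-- `q`-parameter of period one, as a function on the upper half plane. -/
noncomputable def qOne (z : ℍ) : ℂ := 𝕢 1 (z : ℂ)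

lemma qOne_ne_zero (z : ℍ) : qOne z ≠ 0 := Periodic.qParam_ne_zero _

lemma norm_qOne (z : ℍ) : ‖qOne z‖ = Real.exp (-2 * π * z.im) := by
  simp [qOne, Periodic.norm_qParam]

lemma mdiff_qOne : MDiff qOne := by
  intro z
  rw [UpperHalfPlane.mdifferentiableAt_iff]
  have h1 : DifferentiableAt ℂ (𝕢 1) (z : ℂ) := (Periodic.differentiable_qParam (h := 1)) _
  refine h1.congr_of_eventuallyEq ?_
  filter_upwards [isOpen_upperHalfPlaneSet.mem_nhds z.im_pos] with w hw
  simp [qOne, comp_apply, ofComplex_apply_of_im_pos hw]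

/-- A function on `ℍ` invariant under `z ↦ z + 1`. -/
def IsPer (g : ℍ → ℂ) : Prop := ∀ z : ℍ, g ((1 : ℝ) +ᵥ z) = g z

lemma IsPer.periodic {g : ℍ → ℂ} (hg : IsPer g) : Periodic (g ∘ ofComplex) (1 : ℝ) := by
  intro w
  by_cases hw : 0 < im w
  · have hw' : 0 < im (w + (1:ℝ)) := by simpa using hw
    simp only [comp_apply, ofComplex_apply_of_im_pos hw', ofComplex_apply_of_im_pos hw]
    have := hg ⟨w, hw⟩
    convert this using 2
    ext
    simp [add_comm]
  · have hw0 : im w ≤ 0 := not_lt.mp hw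
    have hw' : im (w + (1:ℝ)) ≤ 0 := by simpa using hw0
    simp only [comp_apply]
    rw [ofComplex_apply_eq_of_im_nonpos hw' hw0]

lemma isPer_qOne : IsPer qOne := by
  intro z
  simp only [qOne, coe_vadd, Periodic.qParam]
  rw [show (2 * π * I * ((1:ℝ) + (z:ℂ)) / (1:ℝ) : ℂ) = 2 * π * I * z / (1:ℝ) + 2 * π * I by
    push_cast; ring]
  rw [Complex.exp_add, Complex.exp_two_pi_mul_I, mul_one]

lemma IsPer.mul {f g : ℍ → ℂ} (hf : IsPer f) (hg : IsPer g) : IsPer (fun z => f z * g z) :=
  fun z => by simp only [hf z, hg z]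

lemma IsPer.pow {f : ℍ → ℂ} (hf : IsPer f) (n : ℕ) : IsPer (fun z => f z ^ n) :=
  fun z => by simp only [hf z]

lemma IsPer.sub {f g : ℍ → ℂ} (hf : IsPer f) (hg : IsPer g) : IsPer (fun z => f z - g z) :=
  fun z => by simp only [hf z, hg z]

lemma IsPer.const_mul {f : ℍ → ℂ} (hf : IsPer f) (a : ℂ) : IsPer (fun z => a * f z) :=
  fun z => by simp only [hf z]

/-- The limit at `i∞` of a one-periodic holomorphic function bounded at `i∞` exists, and the
difference is `O(q)`. -/
lemma isBoundedAtImInfty_sub_div_qOne {g : ℍ → ℂ} (hper : IsPer g) (hhol : MDiff g)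
    (hbd : IsBoundedAtImInfty g) :
    IsBoundedAtImInfty (fun z => (g z - valueAtInfty g) / qOne z) := by
  have hP := hper.periodic
  have hanal : AnalyticAt ℂ (cuspFunction 1 g) 0 :=
    analyticAt_cuspFunction_zero one_pos hP hhol hbd
  have h0 : cuspFunction 1 g 0 = valueAtInfty g := cuspFunction_apply_zero one_pos hanal hP
  have hdec := Periodic.exp_decay_sub_of_bounded_at_inf (h := 1) (f := g ∘ ofComplex) one_pos hP
    (eventually_of_mem (preimage_mem_comap (Ioi_mem_atTop 0))
      (fun z hz ↦ UpperHalfPlane.mdifferentiableAt_iff.mp (hhol ⟨z, hz⟩)))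
    (hbd.comp_tendsto tendsto_comap_im_ofComplex)
  have hdec' := hdec.comp_tendsto tendsto_coe_atImInfty
  rw [Asymptotics.isBigO_iff] at hdec'
  obtain ⟨C, hC⟩ := hdec'
  rw [IsBoundedAtImInfty, BoundedAtFilter, Asymptotics.isBigO_iff]
  refine ⟨C, ?_⟩
  filter_upwards [hC] with z hz
  simp only [comp_apply, ofComplex_apply] at hz
  have hcf : Periodic.cuspFunction 1 (g ∘ ofComplex) 0 = valueAtInfty g := h0
  rw [hcf] at hz
  have hq : ‖qOne z‖ = Real.exp (-2 * π * (z : ℂ).im / 1) := by
    rw [norm_qOne]; simp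
  rw [norm_div, hq, Pi.one_apply, norm_one, mul_one, div_le_iff₀ (Real.exp_pos _)]
  simpa [Real.norm_eq_abs, abs_of_pos (Real.exp_pos _)] using hz


/-- `SL(2,ℤ)`-invariance of a function on the upper half plane. -/
def IsInv (f : ℍ → ℂ) : Prop := ∀ (γ : SL(2, ℤ)) (z : ℍ), f (γ • z) = f z

lemma IsInv.isPer {f : ℍ → ℂ} (hf : IsInv f) : IsPer f := fun z => by
  rw [← modular_T_smul]; exact hf _ z

lemma IsInv.slash_eq {f : ℍ → ℂ} (hf : IsInv f) (γ : SL(2, ℤ)) : f ∣[(0 : ℤ)] γ = f := by
  ext z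
  rw [SL_slash_apply, neg_zero, zpow_zero, mul_one]
  exact hf γ z

/-- A bounded holomorphic `SL(2,ℤ)`-invariant function is constant. -/
lemma IsInv.exists_const {f : ℍ → ℂ} (hf : IsInv f) (hhol : MDiff f)
    (hbd : IsBoundedAtImInfty f) : ∃ c : ℂ, ∀ z, f z = c := by
  let F : ModularForm 𝒮ℒ 0 :=
    { toFun := f
      slash_action_eq' := by
        rintro _ ⟨γ, rfl⟩
        exact hf.slash_eq γ
      holo' := hhol
      bdd_at_cusps' := fun {c} hc => by
        rw [OnePoint.isBoundedAt_iff_forall_SL2Z hc]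
        intro γ _
        rw [hf.slash_eq γ]
        exact hbd }
  obtain ⟨c, hc⟩ := ModularFormClass.levelOne_weight_zero_const F
  exact ⟨c, fun z => congrFun hc z⟩


/-- A "Hauptmodul" for `SL(2,ℤ)`: holomorphic, invariant, with a simple pole of residue one
at `i∞` in the parameter `q`. -/
structure IsHauptmodul (J : ℍ → ℂ) : Prop where
  mdiff : MDiff J
  inv : IsInv J
  tendsto : Tendsto (fun z => J z * qOne z) atImInfty (𝓝 1)

namespace IsHauptmodul

variable {J : ℍ → ℂ} (hJ : IsHauptmodul J)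
include hJ

lemma tendsto_pow (m : ℕ) : Tendsto (fun z => (J z * qOne z) ^ m) atImInfty (𝓝 1) := by
  simpa using hJ.tendsto.pow m

lemma isBounded_pow (m : ℕ) : IsBoundedAtImInfty (fun z => (J z * qOne z) ^ m) := by
  have h := (hJ.tendsto_pow m).isBigO_one ℝ
  rw [IsBoundedAtImInfty, BoundedAtFilter]
  exact h

lemma valueAtInfty_pow (m : ℕ) : valueAtInfty (fun z => (J z * qOne z) ^ m) = 1 :=
  (hJ.tendsto_pow m).limUnder_eq

lemma isBounded_pow_sub_one_div (m : ℕ) :
    IsBoundedAtImInfty (fun z => ((J z * qOne z) ^ m - 1) / qOne z) := by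
  have hper : IsPer (fun z => (J z * qOne z) ^ m) := (hJ.inv.isPer.mul isPer_qOne).pow m
  have hhol : MDiff (fun z => (J z * qOne z) ^ m) := (hJ.mdiff.mul mdiff_qOne).pow m
  have := isBoundedAtImInfty_sub_div_qOne hper hhol (hJ.isBounded_pow m)
  rwa [hJ.valueAtInfty_pow m] at this

/-- Main theorem: a holomorphic `SL(2,ℤ)`-invariant function with a pole of order at most `m`
at `i∞` is a polynomial of degree at most `m` in the Hauptmodul. -/
theorem exists_poly : ∀ (m : ℕ) (f : ℍ → ℂ), MDiff f → IsInv f →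
    IsBoundedAtImInfty (fun z => f z * qOne z ^ m) →
    ∃ P : ℂ[X], P.natDegree ≤ m ∧ ∀ z, f z = P.eval (J z) := by
  intro m
  induction m with
  | zero =>
    intro f hhol hinv hbd
    obtain ⟨c, hc⟩ := hinv.exists_const hhol (by simpa using hbd)
    exact ⟨C c, by simp, fun z => by simp [hc z]⟩
  | succ m ih =>
    intro f hhol hinv hbd
    set g : ℍ → ℂ := fun z => f z * qOne z ^ (m + 1) with hg
    have hgper : IsPer g := hinv.isPer.mul (isPer_qOne.pow _)
    have hghol : MDiff g := hhol.mul (mdiff_qOne.pow _)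
    set a : ℂ := valueAtInfty g with ha
    have h1 := isBoundedAtImInfty_sub_div_qOne hgper hghol hbd
    have h2 := hJ.isBounded_pow_sub_one_div (m + 1)
    set f' : ℍ → ℂ := fun z => f z - a * J z ^ (m + 1) with hf'
    have hf'hol : MDiff f' := hhol.sub ((mdifferentiable_const).mul (hJ.mdiff.pow _))
    have hf'inv : IsInv f' := fun γ z => by simp only [hf', hinv γ z, hJ.inv γ z]
    have hf'bd : IsBoundedAtImInfty (fun z => f' z * qOne z ^ m) := by
      have h3 : IsBoundedAtImInfty (fun z => (g z - a) / qOne z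
          - a * (((J z * qOne z) ^ (m + 1) - 1) / qOne z)) :=
        h1.sub ((const_boundedAtFilter _ a).mul h2)
      rw [IsBoundedAtImInfty, BoundedAtFilter] at h3 ⊢
      refine h3.congr_left fun z => ?_
      have hq := qOne_ne_zero z
      simp only [hg, hf']
      field_simp
      ring
    obtain ⟨P', hdeg, hP'⟩ := ih f' hf'hol hf'inv hf'bd
    refine ⟨C a * X ^ (m + 1) + P', ?_, fun z => ?_⟩
    · refine (natDegree_add_le _ _).trans (max_le ?_ (hdeg.trans (Nat.le_succ m)))
      exact (natDegree_C_mul_X_pow_le a (m + 1))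
    · have := hP' z
      simp only [hf'] at this
      simp only [eval_add, eval_mul, eval_C, eval_pow, eval_X, ← this]
      ring

end IsHauptmodul


lemma isBounded_qOne_pow (k : ℕ) : IsBoundedAtImInfty (fun z => qOne z ^ k) := by
  rw [isBoundedAtImInfty_iff]
  refine ⟨1, 0, fun z _ => ?_⟩
  rw [norm_pow]
  refine pow_le_one₀ (norm_nonneg _) ?_
  rw [norm_qOne, Real.exp_le_one_iff]
  have := z.im_pos
  nlinarith [Real.pi_pos]

lemma isBounded_finset_sum {κ : Type*} (S : Finset κ) (F : κ → ℍ → ℂ)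
    (h : ∀ k ∈ S, IsBoundedAtImInfty (F k)) :
    IsBoundedAtImInfty (fun z => ∑ k ∈ S, F k z) := by
  classical
  induction S using Finset.induction_on with
  | empty =>
    simp only [Finset.sum_empty]
    exact const_boundedAtFilter atImInfty (0 : ℂ)
  | insert a S ha ih =>
    have h1 := h a (Finset.mem_insert_self a S)
    have h2 := ih fun k hk => h k (Finset.mem_insert_of_mem hk)
    have h3 : IsBoundedAtImInfty (fun z => F a z + ∑ k ∈ S, F k z) := h1.add h2
    simpa [Finset.sum_insert ha] using h3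

lemma isBounded_finset_prod {κ : Type*} (S : Finset κ) (F : κ → ℍ → ℂ)
    (h : ∀ k ∈ S, IsBoundedAtImInfty (F k)) :
    IsBoundedAtImInfty (fun z => ∏ k ∈ S, F k z) := by
  classical
  induction S using Finset.induction_on with
  | empty =>
    simp only [Finset.prod_empty]
    exact const_boundedAtFilter atImInfty (1 : ℂ)
  | insert a S ha ih =>
    have h1 := h a (Finset.mem_insert_self a S)
    have h2 := ih fun k hk => h k (Finset.mem_insert_of_mem hk)
    have h3 : IsBoundedAtImInfty (fun z => F a z * ∏ k ∈ S, F k z) := h1.mul h2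
    simpa [Finset.prod_insert ha] using h3

section Symm

variable {ι : Type} [Fintype ι]

/-- The `n`-th elementary symmetric function of a finite family of functions. -/
def esymmFun (g : ι → ℍ → ℂ) (n : ℕ) (z : ℍ) : ℂ :=
  ∑ s ∈ Finset.powersetCard n (Finset.univ : Finset ι), ∏ i ∈ s, g i z

lemma esymmFun_eq_esymm (g : ι → ℍ → ℂ) (n : ℕ) (z : ℍ) :
    esymmFun g n z = ((Finset.univ : Finset ι).val.map fun i => g i z).esymm n := by
  rw [Finset.esymm_map_val]; rfl

lemma sum_powersetCard_perm (e : Equiv.Perm ι) (n : ℕ) (F : Finset ι → ℂ) :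
    ∑ s ∈ Finset.powersetCard n (Finset.univ : Finset ι), F (s.map e.toEmbedding)
      = ∑ s ∈ Finset.powersetCard n (Finset.univ : Finset ι), F s := by
  have h : Finset.powersetCard n (Finset.univ : Finset ι)
      = (Finset.powersetCard n (Finset.univ : Finset ι)).map
          (Finset.mapEmbedding e.toEmbedding).toEmbedding := by
    rw [← Finset.powersetCard_map, Finset.map_univ_equiv]
  conv_rhs => rw [h, Finset.sum_map]
  rfl

variable {g : ι → ℍ → ℂ}

lemma isInv_esymmFun
    (hperm : ∀ γ : SL(2, ℤ), ∃ e : Equiv.Perm ι, ∀ i z, g i (γ • z) = g (e i) z) (n : ℕ) :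
    IsInv (esymmFun g n) := by
  intro γ z
  obtain ⟨e, he⟩ := hperm γ
  unfold esymmFun
  rw [← sum_powersetCard_perm e n (fun s => ∏ i ∈ s, g i z)]
  refine Finset.sum_congr rfl fun s _ => ?_
  rw [Finset.prod_map]
  exact Finset.prod_congr rfl fun i _ => he i z

lemma mdiff_esymmFun (hg : ∀ i, MDiff (g i)) (n : ℕ) : MDiff (esymmFun g n) := by
  have h : esymmFun g n
      = ∑ s ∈ Finset.powersetCard n (Finset.univ : Finset ι), ∏ i ∈ s, g i := by
    funext z
    simp [esymmFun, Finset.sum_apply, Finset.prod_apply]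
  rw [h]
  refine MDifferentiable.sum (f := fun s : Finset ι => ∏ i ∈ s, g i) fun s _ => ?_
  exact MDifferentiable.prod (t := s) (f := g) fun i _ => hg i

lemma isBounded_esymmFun {m : ι → ℕ}
    (hb : ∀ i, IsBoundedAtImInfty (fun z => g i z * qOne z ^ m i)) (n : ℕ) :
    IsBoundedAtImInfty (fun z => esymmFun g n z * qOne z ^ (∑ i, m i)) := by
  classical
  have hterm : ∀ s : Finset ι,
      IsBoundedAtImInfty (fun z => (∏ i ∈ s, g i z) * qOne z ^ (∑ i, m i)) := by
    intro s
    have h1 : IsBoundedAtImInfty (fun z => ∏ i ∈ s, (g i z * qOne z ^ m i)) :=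
      isBounded_finset_prod s (fun i z => g i z * qOne z ^ m i) fun i _ => hb i
    have h2 := isBounded_qOne_pow (∑ i ∈ sᶜ, m i)
    have h3 : IsBoundedAtImInfty (fun z => (∏ i ∈ s, (g i z * qOne z ^ m i))
        * qOne z ^ (∑ i ∈ sᶜ, m i)) := h1.mul h2
    rw [IsBoundedAtImInfty, BoundedAtFilter] at h3 ⊢
    refine h3.congr_left fun z => ?_
    rw [Finset.prod_mul_distrib, Finset.prod_pow_eq_pow_sum, mul_assoc, ← pow_add,
      Finset.sum_add_sum_compl]
  have hsum : IsBoundedAtImInfty (fun z => ∑ s ∈ Finset.powersetCard n (Finset.univ : Finset ι),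
      (∏ i ∈ s, g i z) * qOne z ^ (∑ i, m i)) :=
    isBounded_finset_sum _ (fun s z => (∏ i ∈ s, g i z) * qOne z ^ (∑ i, m i))
      fun s _ => hterm s
  rw [IsBoundedAtImInfty, BoundedAtFilter] at hsum ⊢
  refine hsum.congr_left fun z => ?_
  simp [esymmFun, Finset.sum_mul]

end Symm


section Main

variable {ι : Type} [Fintype ι] {g : ι → ℍ → ℂ} {J : ℍ → ℂ}

/-- Elementary symmetric functions of a finite family of holomorphic functions permuted by
`SL(2,ℤ)` and meromorphic at `i∞` are polynomials in the Hauptmodul. -/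
theorem IsHauptmodul.exists_poly_esymm (hJ : IsHauptmodul J) (hg : ∀ i, MDiff (g i))
    (hperm : ∀ γ : SL(2, ℤ), ∃ e : Equiv.Perm ι, ∀ i z, g i (γ • z) = g (e i) z)
    (hb : ∀ i, ∃ m : ℕ, IsBoundedAtImInfty (fun z => g i z * qOne z ^ m)) (n : ℕ) :
    ∃ P : ℂ[X], ∀ z, esymmFun g n z = P.eval (J z) := by
  choose m hm using hb
  obtain ⟨P, -, hP⟩ := hJ.exists_poly (∑ i, m i) (esymmFun g n) (mdiff_esymmFun hg n)
    (isInv_esymmFun hperm n) (isBounded_esymmFun hm n)
  exact ⟨P, hP⟩

/-- The same statement inside the ring of functions `ℍ → ℂ`. -/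
theorem IsHauptmodul.exists_aeval_esymm (hJ : IsHauptmodul J) (hg : ∀ i, MDiff (g i))
    (hperm : ∀ γ : SL(2, ℤ), ∃ e : Equiv.Perm ι, ∀ i z, g i (γ • z) = g (e i) z)
    (hb : ∀ i, ∃ m : ℕ, IsBoundedAtImInfty (fun z => g i z * qOne z ^ m)) (n : ℕ) :
    ∃ P : ℂ[X], ((Finset.univ : Finset ι).val.map g).esymm n = aeval J P := by
  obtain ⟨P, hP⟩ := hJ.exists_poly_esymm hg hperm hb n
  refine ⟨P, ?_⟩
  funext z
  rw [Finset.esymm_map_val]
  have h1 : (aeval J P) z = P.eval (J z) := by
    have := Polynomial.aeval_algHom_apply (Pi.evalAlgHom ℂ (fun _ : ℍ => ℂ) z) J P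
    rw [Pi.evalAlgHom_apply, Pi.evalAlgHom_apply] at this
    rw [← this, Polynomial.coe_aeval_eq_eval]
  rw [h1, ← hP z]
  simp [esymmFun, Finset.sum_apply, Finset.prod_apply]

/-- Characteristic polynomial version: the polynomial `∏ (X - g i z)` is the specialisation at
`J z` of a fixed monic polynomial with coefficients in `ℂ[J]`. -/
theorem IsHauptmodul.exists_charpoly (hJ : IsHauptmodul J) (hg : ∀ i, MDiff (g i))
    (hperm : ∀ γ : SL(2, ℤ), ∃ e : Equiv.Perm ι, ∀ i z, g i (γ • z) = g (e i) z)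
    (hb : ∀ i, ∃ m : ℕ, IsBoundedAtImInfty (fun z => g i z * qOne z ^ m)) :
    ∃ Q : ℂ[X][X], Q.Monic ∧ Q.natDegree = Fintype.card ι ∧
      ∀ z, ∏ i, (X - C (g i z)) = Q.map (evalRingHom (J z)) := by
  classical
  choose P hP using fun n => hJ.exists_poly_esymm hg hperm hb n
  set c : ℕ := Fintype.card ι with hc
  set R : ℂ[X][X] := ∑ j ∈ Finset.range c, (-1) ^ (j + 1) * (C (P (j + 1)) * X ^ (c - (j + 1)))
    with hR
  have hRdeg : R.degree < c := by
    refine (degree_sum_le _ _).trans_lt ?_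
    rw [Finset.sup_lt_iff (by exact_mod_cast WithBot.bot_lt_coe c)]
    intro j hj
    have hj' : j < c := Finset.mem_range.mp hj
    calc ((-1) ^ (j + 1) * (C (P (j + 1)) * X ^ (c - (j + 1))) : ℂ[X][X]).degree
        ≤ ((-1 : ℂ[X][X]) ^ (j + 1)).degree + (C (P (j + 1)) * X ^ (c - (j + 1)) : ℂ[X][X]).degree :=
          degree_mul_le _ _
      _ ≤ 0 + ((c - (j + 1) : ℕ) : WithBot ℕ) := by
          refine add_le_add ?_ (degree_C_mul_X_pow_le _ _)
          have : ((-1 : ℂ[X][X]) ^ (j + 1)) = C ((-1) ^ (j + 1)) := by simp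
          rw [this]; exact degree_C_le
      _ < c := by
          rw [zero_add]
          exact_mod_cast (by omega : c - (j + 1) < c)
  refine ⟨X ^ c + R, monic_X_pow_add hRdeg, ?_, fun z => ?_⟩
  · rw [natDegree_add_eq_left_of_degree_lt (by rwa [degree_X_pow]), natDegree_X_pow]
  · have hV := Multiset.prod_X_sub_X_eq_sum_esymm ((Finset.univ : Finset ι).val.map fun i => g i z)
    rw [Multiset.map_map] at hV
    have hcard : Multiset.card ((Finset.univ : Finset ι).val.map fun i => g i z) = c := by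
      simp [hc]
    rw [hcard] at hV
    have hprod : ∏ i, (X - C (g i z)) = (Multiset.map ((fun t => X - C t) ∘ fun i => g i z)
        (Finset.univ : Finset ι).val).prod := rfl
    rw [hprod, hV, Finset.sum_range_succ', Polynomial.map_add, Polynomial.map_pow, map_X, hR,
      Polynomial.map_sum, add_comm]
    congr 1
    · have h0 : ((Finset.univ : Finset ι).val.map fun i => g i z).esymm 0 = 1 := by
        simp [Multiset.esymm, Multiset.powersetCard_zero_left]
      simp [h0]
    · refine Finset.sum_congr rfl fun j _ => ?_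
      rw [← esymmFun_eq_esymm, hP (j + 1) z]
      simp

end Main

end Fermat.Agent.S28_helper67
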